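/-
GEN-14 (P-GENUS), part (A): the generic construction of the embeddings
`σ γ : F_N →+* M` (germ at `z₀` of `f ∘ γ⁻¹`) from the core data `Θ`.
-/
import Fermat.Agent.H23.BlueprintAn

set_option autoImplicit false

noncomputable section

open Filter Topology UpperHalfPlane
open scoped MatrixGroups Manifold

namespace Fermat.Agent.H33.Gen14

open Fermat.Agent.H23

/-- The data provided by `CoreStatement N`. -/
structure CoreData (N : ℕ) [NeZero N] where
  ι : AlgebraicClosure ℚ →+* ℂ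
  Θ : ↥(Rsub N) →+* (ℍ → ℂ)
  inj : Function.Injective Θ
  hol : ∀ r, MDiff (Θ r)
  const : ∀ c : AlgebraicClosure ℚ,
    Θ (algebraMap (AlgebraicClosure ℚ) ↥(Rsub N) c) = fun _ => ι c
  J : ∀ (d : ℕ) (_ : NeZero d) (hd : d ∣ N) (h : jBarD N d hd ∈ Rsub N),
      Θ ⟨jBarD N d hd, h⟩ = fun z => jfun (scaleH d z)
  frac : ∀ f : ↥(ModularCurve.modularFunctionFieldBar N), ∃ r s : ↥(Rsub N), s ≠ 0 ∧
      f * (s : ↥(ModularCurve.modularFunctionFieldBar N)) = r

lemma nonempty_coreData {N : ℕ} [NeZero N] (h : CoreStatement N) : Nonempty (CoreData N) := by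
  obtain ⟨ι, Θ, h1, h2, h3, h4, h5⟩ := h
  exact ⟨⟨ι, Θ, h1, h2, h3, h4, h5⟩⟩

lemma mdiff_smul_SL (γ : SL(2, ℤ)) : MDiff (fun z : ℍ => γ • z) := by
  have h : (0 : ℝ) < ((Matrix.SpecialLinearGroup.mapGL ℝ γ : GL (Fin 2) ℝ).det : ℝˣ) := by simp
  exact mdifferentiable_smul h

variable {N : ℕ} [NeZero N] (C : CoreData N)

/-- The function `z ↦ Θ r (γ⁻¹ • z)`, extended to `ℂ` by `ofComplex`. -/
def pull (γ : SL(2, ℤ)) (r : ↥(Rsub N)) : ℂ → ℂ :=
  (fun z : ℍ => C.Θ r (γ⁻¹ • z)) ∘ ofComplex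

lemma pull_apply (γ : SL(2, ℤ)) (r : ↥(Rsub N)) (z : ℍ) :
    pull C γ r (z : ℂ) = C.Θ r (γ⁻¹ • z) := by
  simp [pull]

lemma differentiableOn_pull (γ : SL(2, ℤ)) (r : ↥(Rsub N)) :
    DifferentiableOn ℂ (pull C γ r) {z | 0 < z.im} := by
  have h : MDiff (fun z : ℍ => C.Θ r (γ⁻¹ • z)) := (C.hol r).comp (mdiff_smul_SL γ⁻¹)
  exact UpperHalfPlane.mdifferentiable_iff.1 h

lemma analyticOnNhd_pull (γ : SL(2, ℤ)) (r : ↥(Rsub N)) :
    AnalyticOnNhd ℂ (pull C γ r) {z | 0 < z.im} :=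
  (differentiableOn_pull C γ r).analyticOnNhd isOpen_upperHalfPlaneSet

lemma analyticAt_pull (γ : SL(2, ℤ)) (r : ↥(Rsub N)) (z₀ : ℍ) :
    AnalyticAt ℂ (pull C γ r) (z₀ : ℂ) :=
  analyticOnNhd_pull C γ r _ z₀.im_pos

lemma meromorphicAt_pull (γ : SL(2, ℤ)) (r : ↥(Rsub N)) (z₀ : ℍ) :
    MeromorphicAt (pull C γ r) (z₀ : ℂ) :=
  (analyticAt_pull C γ r z₀).meromorphicAt

lemma pull_one (γ : SL(2, ℤ)) : pull C γ 1 = fun _ => 1 := by
  funext z
  simp [pull]

lemma pull_zero (γ : SL(2, ℤ)) : pull C γ 0 = fun _ => 0 := by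
  funext z
  simp [pull]

lemma pull_add (γ : SL(2, ℤ)) (r s : ↥(Rsub N)) :
    pull C γ (r + s) = pull C γ r + pull C γ s := by
  funext z
  simp [pull]

lemma pull_mul (γ : SL(2, ℤ)) (r s : ↥(Rsub N)) :
    pull C γ (r * s) = pull C γ r * pull C γ s := by
  funext z
  simp [pull]

lemma pull_const (γ : SL(2, ℤ)) (c : AlgebraicClosure ℚ) :
    pull C γ (algebraMap (AlgebraicClosure ℚ) ↥(Rsub N) c) = fun _ => C.ι c := by
  funext z
  simp [pull, C.const]

/-- If `pull γ r` vanishes frequently near `z₀`, then `r = 0` (identity theorem). -/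
lemma eq_zero_of_pull_frequently_eq_zero (γ : SL(2, ℤ)) (r : ↥(Rsub N)) (z₀ : ℍ)
    (h : ∃ᶠ z in 𝓝[≠] (z₀ : ℂ), pull C γ r z = 0) : r = 0 := by
  have hpre : IsPreconnected {z : ℂ | 0 < z.im} := (convex_halfSpace_im_gt 0).isPreconnected
  have h0 := (analyticOnNhd_pull C γ r).eqOn_zero_of_preconnected_of_frequently_eq_zero hpre
    z₀.im_pos h
  apply C.inj
  rw [map_zero]
  funext w
  have := h0 (γ • w).im_pos
  rw [pull_apply] at this
  simpa using this

variable {z₀ : ℍ} (G : MerGermField (z₀ : ℂ))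

lemma germ_zero_fun : G.germ (fun _ => 0) = 0 := by
  have h := G.germ_add (fun _ => 0) (fun _ => 0) (MeromorphicAt.const 0 _)
    (MeromorphicAt.const 0 _)
  have e : ((fun _ => 0 : ℂ → ℂ) + fun _ => 0) = fun _ => 0 := by
    funext z; simp
  rw [e] at h
  exact left_eq_add.mp h

/-- The ring homomorphism `r ↦ germ at z₀ of Θ r ∘ γ⁻¹` on `Rsub N`. -/
def sigma0 (γ : SL(2, ℤ)) : ↥(Rsub N) →+* G.M where
  toFun r := G.germ (pull C γ r)
  map_one' := by rw [pull_one]; exact G.germ_one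
  map_mul' r s := by
    rw [pull_mul]
    exact G.germ_mul _ _ (meromorphicAt_pull C γ r z₀) (meromorphicAt_pull C γ s z₀)
  map_zero' := by rw [pull_zero]; exact germ_zero_fun G
  map_add' r s := by
    rw [pull_add]
    exact G.germ_add _ _ (meromorphicAt_pull C γ r z₀) (meromorphicAt_pull C γ s z₀)

lemma sigma0_apply (γ : SL(2, ℤ)) (r : ↥(Rsub N)) :
    sigma0 C G γ r = G.germ (pull C γ r) := rfl

lemma sigma0_eq_iff (γ γ' : SL(2, ℤ)) (r s : ↥(Rsub N)) :
    sigma0 C G γ r = sigma0 C G γ' s ↔ ∀ z : ℍ, C.Θ r (γ⁻¹ • z) = C.Θ s (γ'⁻¹ • z) := by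
  rw [sigma0_apply, sigma0_apply,
    G.germ_eq_iff _ _ (meromorphicAt_pull C γ r z₀) (meromorphicAt_pull C γ' s z₀)]
  constructor
  · intro h z
    have hpre : IsPreconnected {z : ℂ | 0 < z.im} := (convex_halfSpace_im_gt 0).isPreconnected
    have han := (analyticOnNhd_pull C γ r).sub (analyticOnNhd_pull C γ' s)
    have hfreq : ∃ᶠ w in 𝓝[≠] (z₀ : ℂ), (pull C γ r - pull C γ' s) w = 0 := by
      apply Eventually.frequently
      filter_upwards [h] with w hw
      simp [hw]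
    have h0 := han.eqOn_zero_of_preconnected_of_frequently_eq_zero hpre z₀.im_pos hfreq
    have := h0 z.im_pos
    simp only [Pi.sub_apply, pull_apply, Pi.zero_apply] at this
    exact sub_eq_zero.1 this
  · intro h
    apply eventually_nhdsWithin_of_eventually_nhds
    filter_upwards [isOpen_upperHalfPlaneSet.mem_nhds z₀.im_pos] with w hw
    have := h ⟨w, hw⟩
    simpa [pull, ofComplex_apply_of_im_pos hw] using this

lemma sigma0_injective (γ : SL(2, ℤ)) : Function.Injective (sigma0 C G γ) := by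
  intro r s h
  rw [sigma0_eq_iff] at h
  apply C.inj
  funext w
  simpa using h (γ • w)

lemma isFractionRing_Rsub (C : CoreData N) :
    IsFractionRing ↥(Rsub N) ↥(ModularCurve.modularFunctionFieldBar N) := by
  refine IsFractionRing.of_field _ _ fun f => ?_
  obtain ⟨r, s, hs, h⟩ := C.frac f
  refine ⟨r, s, ?_⟩
  have hs' : (s : ↥(ModularCurve.modularFunctionFieldBar N)) ≠ 0 := by
    intro h0
    exact hs (Subtype.ext h0)
  rw [eq_div_iff]
  · exact h
  · exact hs'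

/-- The embedding `σ γ` of the function field into the germ field: germ at `z₀` of `f ∘ γ⁻¹`. -/
def sigma (γ : SL(2, ℤ)) : ↥(ModularCurve.modularFunctionFieldBar N) →+* G.M :=
  haveI := isFractionRing_Rsub C
  IsFractionRing.lift (sigma0_injective C G γ)

lemma sigma_coe (γ : SL(2, ℤ)) (r : ↥(Rsub N)) :
    sigma C G γ (r : ↥(ModularCurve.modularFunctionFieldBar N)) = sigma0 C G γ r := by
  have := isFractionRing_Rsub C
  exact IsFractionRing.lift_algebraMap (sigma0_injective C G γ) r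

lemma sigma_ext (γ γ' : SL(2, ℤ))
    (h : ∀ r : ↥(Rsub N), sigma0 C G γ r = sigma0 C G γ' r) : sigma C G γ = sigma C G γ' := by
  have := isFractionRing_Rsub C
  apply IsFractionRing.ringHom_ext (A := ↥(Rsub N))
  intro r
  have e1 := sigma_coe C G γ r
  have e2 := sigma_coe C G γ' r
  exact (e1.trans (h r)).trans e2.symm

lemma sigma_const (γ : SL(2, ℤ)) (c : AlgebraicClosure ℚ) :
    sigma C G γ (algebraMap (AlgebraicClosure ℚ) ↥(ModularCurve.modularFunctionFieldBar N) c)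
      = G.germ (fun _ => C.ι c) := by
  have e : algebraMap (AlgebraicClosure ℚ) ↥(ModularCurve.modularFunctionFieldBar N) c =
      ((algebraMap (AlgebraicClosure ℚ) ↥(Rsub N) c : ↥(Rsub N)) :
        ↥(ModularCurve.modularFunctionFieldBar N)) := rfl
  rw [e, sigma_coe, sigma0_apply, pull_const]

lemma ι_ne_zero {c : AlgebraicClosure ℚ} (hc : c ≠ 0) : C.ι c ≠ 0 :=
  (map_ne_zero C.ι).2 hc

/-- `val_const`. -/
lemma val_sigma_const (γ : SL(2, ℤ)) (c : AlgebraicClosure ℚ) (hc : c ≠ 0) :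
    G.val (sigma C G γ
      (algebraMap (AlgebraicClosure ℚ) ↥(ModularCurve.modularFunctionFieldBar N) c)) = 0 := by
  classical
  rw [sigma_const, G.val_germ _ (MeromorphicAt.const _ _), meromorphicOrderAt_const,
    if_neg (ι_ne_zero C hc)]

/-- `der_const`. -/
lemma der_sigma_const (γ : SL(2, ℤ)) (c : AlgebraicClosure ℚ) :
    G.der (sigma C G γ
      (algebraMap (AlgebraicClosure ℚ) ↥(ModularCurve.modularFunctionFieldBar N) c)) = 0 := by
  rw [sigma_const, G.der_germ _ (MeromorphicAt.const _ _)]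
  have e : deriv (fun _ : ℂ => C.ι c) = fun _ => 0 := by
    funext z
    simp
  rw [e]
  exact germ_zero_fun G

/-- `σ_const`. -/
lemma sigma_const_eq (γ γ' : SL(2, ℤ)) (c : AlgebraicClosure ℚ) :
    sigma C G γ (algebraMap (AlgebraicClosure ℚ) ↥(ModularCurve.modularFunctionFieldBar N) c)
      = sigma C G γ'
        (algebraMap (AlgebraicClosure ℚ) ↥(ModularCurve.modularFunctionFieldBar N) c) := by
  rw [sigma_const, sigma_const]

/-- Every `Θ r` is `Γ₀(N)`-invariant. -/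
lemma Θ_invariant (hsep : SeparationStatement N) (r : ↥(Rsub N)) :
    ∀ β ∈ CongruenceSubgroup.Gamma0 N, ∀ w : ℍ, C.Θ r (β • w) = C.Θ r w := by
  obtain ⟨r, hr⟩ := r
  induction hr using Algebra.adjoin_induction with
  | mem x hx =>
    obtain ⟨d, hd0, hd, rfl⟩ := hx
    intro β hβ w
    have := C.J d hd0 hd (Algebra.subset_adjoin ⟨d, hd0, hd, rfl⟩)
    rw [this]
    exact hsep.2 d hd0 hd β hβ w
  | algebraMap c =>
    intro β _ w
    have := C.const c
    have e : (⟨algebraMap (AlgebraicClosure ℚ) ↥(ModularCurve.modularFunctionFieldBar N) c,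
        Subalgebra.algebraMap_mem _ c⟩ : ↥(Rsub N)) =
        algebraMap (AlgebraicClosure ℚ) ↥(Rsub N) c := rfl
    rw [e, this]
  | add x y hx hy ihx ihy =>
    intro β hβ w
    have e : (⟨x + y, Subalgebra.add_mem _ hx hy⟩ : ↥(Rsub N)) = ⟨x, hx⟩ + ⟨y, hy⟩ := rfl
    rw [e, map_add, Pi.add_apply, Pi.add_apply, ihx β hβ w, ihy β hβ w]
  | mul x y hx hy ihx ihy =>
    intro β hβ w
    have e : (⟨x * y, Subalgebra.mul_mem _ hx hy⟩ : ↥(Rsub N)) = ⟨x, hx⟩ * ⟨y, hy⟩ := rfl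
    rw [e, map_mul, Pi.mul_apply, Pi.mul_apply, ihx β hβ w, ihy β hβ w]

lemma jBarD_mem_Rsub (d : ℕ) [hd0 : NeZero d] (hd : d ∣ N) : jBarD N d hd ∈ Rsub N :=
  Algebra.subset_adjoin ⟨d, hd0, hd, rfl⟩

/-- `σ_eq_iff`. -/
lemma sigma_eq_iff (hsep : SeparationStatement N) (γ γ' : SL(2, ℤ)) :
    sigma C G γ = sigma C G γ' ↔ γ⁻¹ * γ' ∈ CongruenceSubgroup.Gamma0 N := by
  constructor
  · intro h
    apply hsep.1
    intro z
    have h1 : sigma0 C G γ ⟨jBarD N N dvd_rfl, jBarD_mem_Rsub N dvd_rfl⟩ =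
        sigma0 C G γ' ⟨jBarD N N dvd_rfl, jBarD_mem_Rsub N dvd_rfl⟩ := by
      rw [← sigma_coe, ← sigma_coe, h]
    rw [sigma0_eq_iff] at h1
    have h2 := h1 (γ' • z)
    rw [C.J N inferInstance dvd_rfl (jBarD_mem_Rsub N dvd_rfl)] at h2
    simp only [inv_smul_smul] at h2
    rw [← h2, mul_smul]
  · intro h
    apply sigma_ext
    intro r
    rw [sigma0_eq_iff]
    intro z
    have h1 := Θ_invariant C hsep r _ h (γ'⁻¹ • z)
    rw [← h1, ← mul_smul, mul_assoc, mul_inv_cancel, mul_one]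

lemma jBar_eq_jBarD : jBar N = jBarD N 1 (one_dvd N) := by
  apply Subtype.ext
  show ModularCurve.coeffEmb (AlgebraicClosure ℚ) ModularCurve.jq =
    ModularCurve.coeffEmb (AlgebraicClosure ℚ) (ModularCurve.qExpand ℚ 1 ModularCurve.jq)
  rw [ModularCurve.qExpand_one_apply]

lemma jBar_mem_Rsub : jBar N ∈ Rsub N := by
  rw [jBar_eq_jBarD]
  exact jBarD_mem_Rsub 1 (one_dvd N)

lemma scaleH_one (z : ℍ) : scaleH 1 z = z := by
  apply UpperHalfPlane.ext
  show ((1 : ℕ) : ℂ) * (z : ℂ) = z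
  simp

lemma Θ_jBar : C.Θ ⟨jBar N, jBar_mem_Rsub⟩ = jfun := by
  have h := C.J 1 inferInstance (one_dvd N) (jBarD_mem_Rsub 1 (one_dvd N))
  have e : (⟨jBar N, jBar_mem_Rsub⟩ : ↥(Rsub N)) =
      ⟨jBarD N 1 (one_dvd N), jBarD_mem_Rsub 1 (one_dvd N)⟩ := Subtype.ext jBar_eq_jBarD
  rw [e, h]
  funext z
  rw [scaleH_one]

lemma pull_jBar (hinv : ∀ (γ : SL(2, ℤ)) (z : ℍ), jfun (γ • z) = jfun z) (γ : SL(2, ℤ)) :
    pull C γ ⟨jBar N, jBar_mem_Rsub⟩ = jfun ∘ ofComplex := by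
  funext z
  simp only [pull, Function.comp_apply, Θ_jBar, hinv]

lemma germ_sub (f g : ℂ → ℂ) (hf : MeromorphicAt f (z₀ : ℂ)) (hg : MeromorphicAt g (z₀ : ℂ)) :
    G.germ (f - g) = G.germ f - G.germ g := by
  have h := G.germ_add (f - g) g (hf.sub hg) hg
  rw [sub_add_cancel] at h
  rw [h, add_sub_cancel_right]

/-- The image of `j - a` under `σ γ` is the germ of `j - ι a` (independent of `γ`). -/
lemma sigma_jBar_sub (hinv : ∀ (γ : SL(2, ℤ)) (z : ℍ), jfun (γ • z) = jfun z) (γ : SL(2, ℤ))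
    (a : AlgebraicClosure ℚ) :
    sigma C G γ (jBar N -
        algebraMap (AlgebraicClosure ℚ) ↥(ModularCurve.modularFunctionFieldBar N) a)
      = G.germ ((fun z => jfun z - C.ι a) ∘ ofComplex) := by
  have hj : MeromorphicAt (jfun ∘ ofComplex) (z₀ : ℂ) := by
    rw [← pull_jBar C hinv 1]
    exact meromorphicAt_pull C 1 _ z₀
  rw [map_sub, sigma_const]
  have e : jBar N = ((⟨jBar N, jBar_mem_Rsub⟩ : ↥(Rsub N)) :
      ↥(ModularCurve.modularFunctionFieldBar N)) := rfl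
  rw [e, sigma_coe, sigma0_apply, pull_jBar C hinv, ← germ_sub G _ _ hj (MeromorphicAt.const _ _)]
  rfl

/-- `σ_y` for `y = j - a`. -/
lemma sigma_y_eq (hinv : ∀ (γ : SL(2, ℤ)) (z : ℍ), jfun (γ • z) = jfun z) (γ γ' : SL(2, ℤ))
    (a : AlgebraicClosure ℚ) :
    sigma C G γ (jBar N -
        algebraMap (AlgebraicClosure ℚ) ↥(ModularCurve.modularFunctionFieldBar N) a)
      = sigma C G γ' (jBar N -
        algebraMap (AlgebraicClosure ℚ) ↥(ModularCurve.modularFunctionFieldBar N) a) := by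
  rw [sigma_jBar_sub C G hinv, sigma_jBar_sub C G hinv]

include C in
lemma meromorphicAt_jfun_sub (hinv : ∀ (γ : SL(2, ℤ)) (z : ℍ), jfun (γ • z) = jfun z)
    (c : ℂ) : MeromorphicAt ((fun z => jfun z - c) ∘ ofComplex) (z₀ : ℂ) := by
  have hj : MeromorphicAt (jfun ∘ ofComplex) (z₀ : ℂ) := by
    rw [← pull_jBar C hinv 1]
    exact meromorphicAt_pull C 1 _ z₀
  exact hj.sub (MeromorphicAt.const c _)

/-- `val_y` for `y = j - a`: the value is the order of `j - ι a` at `z₀`. -/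
lemma val_sigma_y (hinv : ∀ (γ : SL(2, ℤ)) (z : ℍ), jfun (γ • z) = jfun z) (γ : SL(2, ℤ))
    (a : AlgebraicClosure ℚ) :
    G.val (sigma C G γ (jBar N -
        algebraMap (AlgebraicClosure ℚ) ↥(ModularCurve.modularFunctionFieldBar N) a))
      = meromorphicOrderAt ((fun z => jfun z - C.ι a) ∘ ofComplex) (z₀ : ℂ) := by
  rw [sigma_jBar_sub C G hinv, G.val_germ _ (meromorphicAt_jfun_sub C hinv _)]

/-- The Möbius map of `h⁻¹`, extended to `ℂ` by `ofComplex`. -/
def moeb (h : SL(2, ℤ)) : ℂ → ℂ := fun z : ℂ => (((h⁻¹ • ofComplex z : ℍ)) : ℂ)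

lemma pull_mul_left (h γ : SL(2, ℤ)) (r : ↥(Rsub N)) :
    pull C (h * γ) r = pull C γ r ∘ moeb h := by
  funext z
  simp only [pull, moeb, Function.comp_apply, ofComplex_apply, mul_inv_rev, mul_smul]

lemma eventually_pull_ne_zero (γ : SL(2, ℤ)) (s : ↥(Rsub N)) (hs : s ≠ 0) (z₀ : ℍ) :
    ∀ᶠ z in 𝓝[≠] (z₀ : ℂ), pull C γ s z ≠ 0 := by
  rcases (analyticAt_pull C γ s z₀).eventually_eq_zero_or_eventually_ne_zero with h | h
  · exfalso
    exact hs (eq_zero_of_pull_frequently_eq_zero C γ s z₀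
      (h.filter_mono nhdsWithin_le_nhds).frequently)
  · exact h

lemma meromorphicAt_pull_div (γ : SL(2, ℤ)) (r s : ↥(Rsub N)) (z₀ : ℍ) :
    MeromorphicAt (pull C γ r / pull C γ s) (z₀ : ℂ) :=
  (meromorphicAt_pull C γ r z₀).div (meromorphicAt_pull C γ s z₀)

/-- Explicit description of `σ γ f` for `f = r / s`: the germ of `pull γ r / pull γ s`. -/
lemma sigma_eq_germ_div (γ : SL(2, ℤ)) (f : ↥(ModularCurve.modularFunctionFieldBar N))
    (r s : ↥(Rsub N)) (hs : s ≠ 0)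
    (hfs : f * (s : ↥(ModularCurve.modularFunctionFieldBar N)) = r) :
    sigma C G γ f = G.germ (pull C γ r / pull C γ s) := by
  have h1 : sigma C G γ f * sigma0 C G γ s = sigma0 C G γ r := by
    rw [← sigma_coe, ← sigma_coe, ← map_mul, hfs]
  have hs0 : sigma0 C G γ s ≠ 0 := (map_ne_zero_iff _ (sigma0_injective C G γ)).2 hs
  have hmer := meromorphicAt_pull_div C γ r s z₀
  have h2 : G.germ (pull C γ r / pull C γ s) * sigma0 C G γ s = sigma0 C G γ r := by
    rw [sigma0_apply, sigma0_apply, ← G.germ_mul _ _ hmer (meromorphicAt_pull C γ s z₀),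
      G.germ_eq_iff _ _ (hmer.mul (meromorphicAt_pull C γ s z₀)) (meromorphicAt_pull C γ r z₀)]
    filter_upwards [eventually_pull_ne_zero C γ s hs z₀] with z hz
    simp only [Pi.mul_apply, Pi.div_apply]
    exact div_mul_cancel₀ _ hz
  exact mul_right_cancel₀ hs0 (h1.trans h2.symm)

lemma sigma_mul_left_eq_germ (h γ : SL(2, ℤ)) (f : ↥(ModularCurve.modularFunctionFieldBar N))
    (r s : ↥(Rsub N)) (hs : s ≠ 0)
    (hfs : f * (s : ↥(ModularCurve.modularFunctionFieldBar N)) = r) :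
    sigma C G (h * γ) f = G.germ ((pull C γ r / pull C γ s) ∘ moeb h) := by
  rw [sigma_eq_germ_div C G (h * γ) f r s hs hfs, pull_mul_left, pull_mul_left]
  rfl

lemma sigma_injective (γ : SL(2, ℤ)) : Function.Injective (sigma C G γ) :=
  (sigma C G γ).injective

/-- For `f ≠ 0`, the value `val (σ γ f)` is an integer. -/
lemma val_sigma_ne_top (γ : SL(2, ℤ)) (f : ↥(ModularCurve.modularFunctionFieldBar N))
    (hf : f ≠ 0) : G.val (sigma C G γ f) ≠ ⊤ := by
  intro h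
  rw [AddValuation.top_iff] at h
  exact hf ((map_eq_zero_iff _ (sigma_injective C G γ)).1 h)

end Fermat.Agent.H33.Gen14

end
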