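/-
GEN-14 (P-GENUS), part (C): assembly of an `AnalyticDatum` at a point `z₀` of the upper half
plane from the generic construction (part A) and the local facts about Möbius maps (part B, taken
as hypotheses `LocalOrderStatement`, `LocalDvdStatement`).
-/
import Fermat.Agent.H33.Gen14.Construction

set_option autoImplicit false

noncomputable section

open Filter Topology UpperHalfPlane
open scoped MatrixGroups Manifold

namespace Fermat.Agent.H33.Gen14

open Fermat.Agent.H23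

/-- (U1) composition with the Möbius map of an element fixing `z₀` preserves the order at `z₀`. -/
def LocalOrderStatement : Prop :=
  ∀ (g : SL(2, ℤ)) (z₀ : ℍ), g • z₀ = z₀ → ∀ H : ℂ → ℂ,
    meromorphicOrderAt (H ∘ fun z : ℂ => (((g⁻¹ • ofComplex z : ℍ)) : ℂ)) (z₀ : ℂ)
      = meromorphicOrderAt H (z₀ : ℂ)

/-- (U2) a meromorphic germ invariant under the Möbius map of `g ^ k` has order divisible by
`e₀ / gcd e₀ k`, where `e₀` is the order of the multiplier of `g` at the fixed point. -/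
def LocalDvdStatement : Prop :=
  ∀ (g : SL(2, ℤ)) (z₀ : ℍ), g • z₀ = z₀ → ∀ (e₀ : ℕ),
    IsPrimitiveRoot ((denom (g : GL (Fin 2) ℝ) (z₀ : ℂ)) ^ 2) e₀ → ∀ (k : ℕ) (H : ℂ → ℂ),
    MeromorphicAt H (z₀ : ℂ) → ∀ n : ℤ, meromorphicOrderAt H (z₀ : ℂ) = (n : WithTop ℤ) →
    ((H ∘ fun z : ℂ => ((((g ^ k)⁻¹ • ofComplex z : ℍ)) : ℂ)) =ᶠ[𝓝[≠] (z₀ : ℂ)] H) →
    ((e₀ / Nat.gcd e₀ k : ℕ) : ℤ) ∣ n

variable {N : ℕ} [NeZero N]

/-- The analytic datum at `z₀` for `y = j - a`, where `g` fixes `z₀` with multiplier a primitive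
`e₀`-th root of unity and `j - ι a` vanishes to order `e₀` at `z₀`. -/
def analyticDatumAt (hU1 : LocalOrderStatement) (hU2 : LocalDvdStatement)
    (C : CoreData N) (hsep : SeparationStatement N)
    (hinv : ∀ (γ : SL(2, ℤ)) (z : ℍ), jfun (γ • z) = jfun z)
    (g : SL(2, ℤ)) (z₀ : ℍ) (hfix : g • z₀ = z₀) (e₀ : ℕ)
    (hζ : IsPrimitiveRoot ((denom (g : GL (Fin 2) ℝ) (z₀ : ℂ)) ^ 2) e₀)
    (G : MerGermField (z₀ : ℂ)) (a : AlgebraicClosure ℚ)
    (hord : meromorphicOrderAt ((fun z => jfun z - C.ι a) ∘ ofComplex) (z₀ : ℂ)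
      = ((e₀ : ℤ) : WithTop ℤ)) :
    AnalyticDatum N (jBar N -
      algebraMap (AlgebraicClosure ℚ) ↥(ModularCurve.modularFunctionFieldBar N) a) g e₀ where
  M := G.M
  fieldM := G.fieldM
  val := G.val
  der := G.der
  der_add := G.der_add
  der_mul := G.der_mul
  val_der := G.val_der
  σ := sigma C G
  val_const := val_sigma_const C G
  der_const := der_sigma_const C G
  σ_const := sigma_const_eq C G
  σ_eq_iff := sigma_eq_iff C G hsep
  σ_y := fun γ γ' => sigma_y_eq C G hinv γ γ' a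
  val_y := fun γ => (val_sigma_y C G hinv γ a).trans hord
  val_g := by
    intro γ f
    obtain ⟨r, s, hs, hfs⟩ := C.frac f
    have hm : MeromorphicAt ((pull C γ r / pull C γ s) ∘ moeb g) (z₀ : ℂ) := by
      have := meromorphicAt_pull_div C (g * γ) r s z₀
      rwa [pull_mul_left, pull_mul_left] at this
    rw [sigma_mul_left_eq_germ C G g γ f r s hs hfs, sigma_eq_germ_div C G γ f r s hs hfs,
      G.val_germ _ hm, G.val_germ _ (meromorphicAt_pull_div C γ r s z₀)]
    exact hU1 g z₀ hfix _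
  val_dvd := by
    intro γ k hk f hf
    obtain ⟨r, s, hs, hfs⟩ := C.frac f
    have hσ : sigma C G γ = sigma C G (g ^ k * γ) :=
      (sigma_eq_iff C G hsep γ (g ^ k * γ)).2 (by simpa [mul_assoc] using hk)
    have hm : MeromorphicAt ((pull C γ r / pull C γ s) ∘ moeb (g ^ k)) (z₀ : ℂ) := by
      have := meromorphicAt_pull_div C (g ^ k * γ) r s z₀
      rwa [pull_mul_left, pull_mul_left] at this
    have hm0 := meromorphicAt_pull_div C γ r s z₀
    have hgerm : G.germ ((pull C γ r / pull C γ s) ∘ moeb (g ^ k)) =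
        G.germ (pull C γ r / pull C γ s) := by
      rw [← sigma_mul_left_eq_germ C G (g ^ k) γ f r s hs hfs,
        ← sigma_eq_germ_div C G γ f r s hs hfs, hσ]
    have hev := (G.germ_eq_iff _ _ hm hm0).1 hgerm
    have hne := val_sigma_ne_top C G γ f hf
    obtain ⟨n, hn⟩ := WithTop.ne_top_iff_exists.1 hne
    have hn' : meromorphicOrderAt (pull C γ r / pull C γ s) (z₀ : ℂ) = (n : WithTop ℤ) := by
      rw [← G.val_germ _ hm0, ← sigma_eq_germ_div C G γ f r s hs hfs, hn]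
    obtain ⟨m, hm'⟩ := hU2 g z₀ hfix e₀ hζ k _ hm0 n hn' hev
    refine ⟨m, ?_⟩
    rw [← hn, hm']

/-- (U3) the multipliers of `S` and `S * T` at their fixed points. -/
def LocalRootStatement : Prop :=
  (∀ z₀ : ℍ, ModularGroup.S • z₀ = z₀ →
    IsPrimitiveRoot ((denom (ModularGroup.S : GL (Fin 2) ℝ) (z₀ : ℂ)) ^ 2) 2) ∧
  (∀ z₀ : ℍ, (ModularGroup.S * ModularGroup.T) • z₀ = z₀ →
    IsPrimitiveRoot
      ((denom ((ModularGroup.S * ModularGroup.T : SL(2, ℤ)) : GL (Fin 2) ℝ) (z₀ : ℂ)) ^ 2) 3)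

/-- **GEN-14**: the analytic data at the finite points (generic, `ρ`, `i`), i.e. the first three
components of `AnalyticStatement N`, from the interfaces of GEN-10, 11, 12, 13 and the local
facts (U1), (U2), (U3). -/
theorem analyticData_finite (hU1 : LocalOrderStatement) (hU2 : LocalDvdStatement)
    (hU3 : LocalRootStatement) (hmer : MerGermStatement) (hcore : CoreStatement N)
    (hj : JFactsStatement) (hsep : SeparationStatement N) :
    (∀ a : AlgebraicClosure ℚ, a ≠ 0 → a ≠ 1728 →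
      Nonempty (AnalyticDatum N (jBar N - algebraMap _ _ a) 1 1)) ∧
    Nonempty (AnalyticDatum N (jBar N - algebraMap _ _ (0 : AlgebraicClosure ℚ))
      (ModularGroup.S * ModularGroup.T) 3) ∧
    Nonempty (AnalyticDatum N (jBar N - algebraMap _ _ (1728 : AlgebraicClosure ℚ))
      ModularGroup.S 2) := by
  obtain ⟨C⟩ := nonempty_coreData hcore
  obtain ⟨hinv, -, hsurj, hgen, hi, hρ⟩ := hj
  refine ⟨?_, ?_, ?_⟩
  · intro a ha0 ha1728
    obtain ⟨z₀, hz₀⟩ := hsurj (C.ι a)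
    obtain ⟨G⟩ := hmer (z₀ : ℂ)
    have h0 : jfun z₀ ≠ 0 := by
      rw [hz₀]
      exact ι_ne_zero C ha0
    have h1728 : jfun z₀ ≠ 1728 := by
      rw [hz₀]
      intro h
      apply ha1728
      apply C.ι.injective
      rw [h, map_ofNat]
    have hord := hgen z₀ h0 h1728
    rw [hz₀] at hord
    have hζ : IsPrimitiveRoot
        ((denom (((1 : SL(2, ℤ)) : GL (Fin 2) ℝ)) (z₀ : ℂ)) ^ 2) 1 := by
      have : denom (((1 : SL(2, ℤ)) : GL (Fin 2) ℝ)) (z₀ : ℂ) = 1 := by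
        simp [denom]
      rw [this, one_pow]
      exact IsPrimitiveRoot.one
    exact ⟨analyticDatumAt hU1 hU2 C hsep hinv 1 z₀ (one_smul _ _) 1 hζ G a
      (by rw [hord]; rfl)⟩
  · obtain ⟨z₀, hfix, hz₀, hord⟩ := hρ
    obtain ⟨G⟩ := hmer (z₀ : ℂ)
    have hord' : meromorphicOrderAt ((fun z => jfun z - C.ι 0) ∘ ofComplex) (z₀ : ℂ)
        = (((3 : ℕ) : ℤ) : WithTop ℤ) := by
      have e : ((fun z => jfun z - C.ι 0) ∘ ofComplex) = jfun ∘ ofComplex := by
        funext z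
        simp
      rw [e, hord]
      rfl
    exact ⟨analyticDatumAt hU1 hU2 C hsep hinv _ z₀ hfix 3 (hU3.2 z₀ hfix) G 0 hord'⟩
  · obtain ⟨z₀, hfix, hz₀, hord⟩ := hi
    obtain ⟨G⟩ := hmer (z₀ : ℂ)
    have hord' : meromorphicOrderAt ((fun z => jfun z - C.ι 1728) ∘ ofComplex) (z₀ : ℂ)
        = (((2 : ℕ) : ℤ) : WithTop ℤ) := by
      rw [map_ofNat, hord]
      rfl
    exact ⟨analyticDatumAt hU1 hU2 C hsep hinv _ z₀ hfix 2 (hU3.1 z₀ hfix) G 1728 hord'⟩

end Fermat.Agent.H33.Gen14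

end
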